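import Fermat.Agent.TotallyRealKummer.Zeta
import Mathlib.NumberTheory.Padics.RingHoms

/-!
# Serre's `p`-adic zeta function of a totally real field

The values `2 ^ (-n) ζ (1 - k)` along a class of `k` modulo `p - 1` extend by limits to a function
on `ℤ_p`.
-/

set_option autoImplicit false
set_option linter.unusedSectionVars false
set_option linter.style.haveILetI false

noncomputable section

open NumberField Module Filter Topology
open scoped Classical

namespace FA.TotallyRealKummer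

open FA.SiegelConstant

variable (K : Type*) [Field K] [NumberField K] [IsTotallyReal K]
variable (p : ℕ) [Fact p.Prime] (k₀ : ℕ)

/-- The exponent of index `j`. -/
def kOf (j : ℕ) : ℕ := k₀ + (p - 1) * j

/-- The hypotheses on the class. -/
structure GoodClass : Prop where
  five : 5 ≤ p
  even : Even k₀
  two_le : 2 ≤ k₀
  weight : 4 ≤ k₀ * finrank ℚ K
  not_dvd : ¬(p - 1) ∣ k₀ * finrank ℚ K

/-- The value of index `j` in `ℚ_p`. -/
def padicVal' (j : ℕ) : ℚ_[p] := (siegelTotal K (kOf p k₀ j) : ℚ_[p])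

variable {K p k₀}

theorem GoodClass.spec (h : GoodClass K p k₀) (j : ℕ) :
    Even (kOf p k₀ j) ∧ 2 ≤ kOf p k₀ j ∧ 4 ≤ kOf p k₀ j * finrank ℚ K ∧
      ¬(p - 1) ∣ kOf p k₀ j * finrank ℚ K := by
  refine ⟨h.even.add (((Fact.out : p.Prime).even_sub_one (by have := h.five; omega)).mul_right _),
    h.two_le.trans (Nat.le_add_right _ _),
    h.weight.trans (Nat.mul_le_mul_right _ (Nat.le_add_right _ _)), fun hh => h.not_dvd ?_⟩
  rw [kOf, add_mul, mul_assoc] at hh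
  exact (Nat.dvd_add_left (dvd_mul_right _ _)).1 hh

theorem GoodClass.norm_val_le (h : GoodClass K p k₀) (j : ℕ) : ‖padicVal' K p k₀ j‖ ≤ 1 := by
  obtain ⟨h1, h2, h3, h4⟩ := h.spec j
  exact Padic.norm_rat_le_one (siegelTotal_integral h.five h1 h2 h3 h4)

/-- The value of index `j`. -/
def GoodClass.val (h : GoodClass K p k₀) (j : ℕ) : ℤ_[p] := ⟨padicVal' K p k₀ j, h.norm_val_le j⟩

theorem GoodClass.norm_val_sub (h : GoodClass K p k₀) {a i j : ℕ} (hi : a + 2 ≤ kOf p k₀ i)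
    (hj : a + 2 ≤ kOf p k₀ j) (hij : ‖(i : ℤ_[p]) - (j : ℤ_[p])‖ ≤ (p : ℝ) ^ (-(a : ℤ))) :
    ‖h.val i - h.val j‖ ≤ (p : ℝ) ^ (-((a + 1 : ℕ) : ℤ)) := by
  obtain ⟨i1, i2, i3, i4⟩ := h.spec i
  obtain ⟨j1, j2, j3, -⟩ := h.spec j
  have hmod : kOf p k₀ i ≡ kOf p k₀ j [MOD (p - 1) * p ^ a] := by
    refine Nat.ModEq.add_left _ (Nat.ModEq.mul_left' _ ?_)
    rw [PadicInt.norm_le_pow_iff_mem_span_pow, Ideal.mem_span_singleton] at hij
    rw [Nat.modEq_iff_dvd, Nat.cast_pow, ← PadicInt.pow_p_dvd_int_iff]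
    push_cast
    rw [← neg_sub, dvd_neg]
    exact hij
  obtain ⟨r, hr, e⟩ := kummer (K := K) h.five i1 i2 hi i3 j2 hj j3 i4 hmod
  rw [norm_sub_rev, PadicInt.norm_def, PadicInt.coe_sub]
  show ‖padicVal' K p k₀ j - padicVal' K p k₀ i‖ ≤ _
  rw [padicVal', padicVal', ← Rat.cast_sub, e, Rat.cast_mul, Rat.cast_pow, Rat.cast_natCast,
    norm_mul, Padic.norm_p_pow]
  exact mul_le_of_le_one_right (zpow_nonneg (Nat.cast_nonneg _) _) (Padic.norm_rat_le_one hr)

/-- An index congruent to `x` modulo `p ^ a` and large. -/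
def index (p : ℕ) [Fact p.Prime] (x : ℤ_[p]) (a : ℕ) : ℕ := x.appr a + p ^ a * (a + 2)

theorem norm_index (x : ℤ_[p]) (a : ℕ) :
    ‖x - (index p x a : ℤ_[p])‖ ≤ (p : ℝ) ^ (-(a : ℤ)) := by
  rw [PadicInt.norm_le_pow_iff_mem_span_pow, index]
  push_cast
  rw [← sub_sub]
  exact sub_mem (PadicInt.appr_spec a x)
    (Ideal.mem_span_singleton.2 (dvd_mul_right _ _))

theorem le_index (x : ℤ_[p]) (a : ℕ) : a + 2 ≤ index p x a :=
  le_trans (Nat.le_mul_of_pos_left _ (pow_pos (Fact.out : p.Prime).pos a)) (Nat.le_add_left _ _)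

theorem le_kOf_index (x : ℤ_[p]) (a : ℕ) : a + 2 ≤ kOf p k₀ (index p x a) :=
  (le_index x a).trans (le_trans
    (Nat.le_mul_of_pos_left _ (by have := (Fact.out : p.Prime).two_le; omega))
    (Nat.le_add_left _ _))

theorem pow_neg_le {a b : ℕ} (h : a ≤ b) : (p : ℝ) ^ (-(b : ℤ)) ≤ (p : ℝ) ^ (-(a : ℤ)) :=
  zpow_le_zpow_right₀ (by exact_mod_cast (Fact.out : p.Prime).one_lt.le) (by omega)

theorem norm_sub_le_of {x y z : ℤ_[p]} {r : ℝ} (h1 : ‖x - y‖ ≤ r) (h2 : ‖y - z‖ ≤ r) :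
    ‖x - z‖ ≤ r := by
  rw [← sub_add_sub_cancel x y z]
  exact (PadicInt.nonarchimedean _ _).trans (max_le h1 h2)

/-- The function. -/
def GoodClass.zeta (h : GoodClass K p k₀) (x : ℤ_[p]) : ℤ_[p] :=
  limUnder atTop fun a => h.val (index p x a)

theorem GoodClass.tendsto_zeta (h : GoodClass K p k₀) (x : ℤ_[p]) :
    Tendsto (fun a => h.val (index p x a)) atTop (𝓝 (h.zeta x)) := by
  suffices hc : CauchySeq fun a => h.val (index p x a) from hc.tendsto_limUnder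
  refine cauchySeq_of_le_tendsto_0' (fun a => (p : ℝ) ^ (-(a : ℤ))) (fun a b hab => ?_) ?_
  · rw [dist_eq_norm]
    refine (h.norm_val_sub (le_kOf_index x a)
      ((Nat.add_le_add_right hab 2).trans (le_kOf_index x b))
      ?_).trans (pow_neg_le (Nat.le_succ a))
    refine norm_sub_le_of (y := x) ?_ ((norm_index x b).trans (pow_neg_le hab))
    rw [norm_sub_rev]
    exact norm_index x a
  · simp only [zpow_neg, zpow_natCast, ← inv_pow]
    exact tendsto_pow_atTop_nhds_zero_of_lt_one (by positivity)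
      (inv_lt_one_of_one_lt₀ (by exact_mod_cast (Fact.out : p.Prime).one_lt))

/-- **The defining bound.** -/
theorem GoodClass.norm_zeta_sub (h : GoodClass K p k₀) {x : ℤ_[p]} {a j : ℕ}
    (hj : a + 2 ≤ kOf p k₀ j) (hx : ‖x - (j : ℤ_[p])‖ ≤ (p : ℝ) ^ (-(a : ℤ))) :
    ‖h.zeta x - h.val j‖ ≤ (p : ℝ) ^ (-((a + 1 : ℕ) : ℤ)) := by
  refine le_of_tendsto' (show Tendsto (fun b => ‖h.val (index p x (a + b)) - h.val j‖) atTop
    (𝓝 ‖h.zeta x - h.val j‖) from ?_) fun b => ?_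
  · have := (h.tendsto_zeta x).comp (tendsto_atTop_atTop.2 fun b => ⟨b, fun c hc =>
      le_trans hc (Nat.le_add_left c a)⟩ : Tendsto (fun b => a + b) atTop atTop)
    exact (this.sub_const _).norm
  · refine h.norm_val_sub (le_trans (by omega) (le_kOf_index x (a + b))) hj
      (norm_sub_le_of (y := x) ?_ hx)
    rw [norm_sub_rev]
    exact (norm_index x (a + b)).trans (pow_neg_le (Nat.le_add_right a b))

/-- **The limit property.** -/
theorem GoodClass.tendsto_of_seq (h : GoodClass K p k₀) {x : ℤ_[p]} {s : ℕ → ℕ}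
    (hs : Tendsto (fun i => (s i : ℤ_[p])) atTop (𝓝 x)) (hinf : Tendsto s atTop atTop) :
    Tendsto (fun i => h.val (s i)) atTop (𝓝 (h.zeta x)) := by
  rw [Metric.tendsto_atTop]
  intro ε hε
  obtain ⟨a, ha⟩ := PadicInt.exists_pow_neg_lt p hε
  have hpos : (0 : ℝ) < (p : ℝ) ^ (-(a : ℤ)) :=
    zpow_pos (by exact_mod_cast (Fact.out : p.Prime).pos) _
  obtain ⟨N, hN⟩ := Metric.tendsto_atTop.1 hs _ hpos
  obtain ⟨M, hM⟩ := (tendsto_atTop_atTop.1 hinf) (a + 2)
  refine ⟨max N M, fun i hi => ?_⟩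
  rw [dist_comm, dist_eq_norm]
  refine lt_of_le_of_lt ((h.norm_zeta_sub (a := a) ?_ ?_).trans (pow_neg_le (Nat.le_succ a))) ha
  · exact (hM i (le_of_max_le_right hi)).trans (le_trans (Nat.le_mul_of_pos_left _
      (by have := (Fact.out : p.Prime).two_le; omega)) (Nat.le_add_left _ _))
  · rw [norm_sub_rev, ← dist_eq_norm]
    exact (hN i (le_of_max_le_left hi)).le

/-- **A strict contraction.** -/
theorem GoodClass.norm_zeta_sub_zeta (h : GoodClass K p k₀) (x y : ℤ_[p]) :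
    ‖h.zeta x - h.zeta y‖ ≤ ‖x - y‖ / p := by
  rcases eq_or_ne x y with rfl | hne
  · simp
  obtain ⟨a, ha⟩ : ∃ a : ℕ, ‖x - y‖ = (p : ℝ) ^ (-(a : ℤ)) :=
    ⟨_, PadicInt.norm_eq_zpow_neg_valuation (sub_ne_zero.2 hne)⟩
  have hb : (p : ℝ) ^ (-((a + 1 : ℕ) : ℤ)) = ‖x - y‖ / p := by
    have hp0 : (p : ℝ) ≠ 0 := Nat.cast_ne_zero.2 (Fact.out : p.Prime).ne_zero
    rw [ha, show (-((a + 1 : ℕ) : ℤ)) = -(a : ℤ) + -1 by push_cast; ring, zpow_add₀ hp0,
      zpow_neg_one, div_eq_mul_inv]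
  rw [← hb]
  refine norm_sub_le_of (h.norm_zeta_sub (le_kOf_index x a) (norm_index x a)) ?_
  rw [norm_sub_rev]
  refine h.norm_zeta_sub (le_kOf_index x a) (norm_sub_le_of ?_ (norm_index x a))
  rw [norm_sub_rev, ha]

theorem tendsto_index (x : ℤ_[p]) :
    Tendsto (fun a => (index p x a : ℤ_[p])) atTop (𝓝 x) ∧
      Tendsto (index p x) atTop atTop := by
  refine ⟨?_, tendsto_atTop_atTop.2 fun b => ⟨b, fun a ha => ?_⟩⟩
  · rw [tendsto_iff_norm_sub_tendsto_zero]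
    refine squeeze_zero (f := fun a => ‖(index p x a : ℤ_[p]) - x‖)
      (g := fun a => (p : ℝ) ^ (-(a : ℤ))) (fun a => norm_nonneg _) (fun a => ?_) ?_
    · rw [norm_sub_rev]
      exact norm_index x a
    · simp only [zpow_neg, zpow_natCast, ← inv_pow]
      exact tendsto_pow_atTop_nhds_zero_of_lt_one (by positivity)
        (inv_lt_one_of_one_lt₀ (by exact_mod_cast (Fact.out : p.Prime).one_lt))
  · have := le_index x a
    omega

end FA.TotallyRealKummer

end
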