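import Fermat.Agent.SerreDenominators.Denominator

/-!
# Congruent higher coefficients give congruent constant terms

Pad the form of smaller weight with a power of `B E_{p-1} ≡ B (mod p)`; the difference divided by
the power of `p` has integral higher coefficients, so Serre's denominator theorem bounds its
constant term.
-/

set_option autoImplicit false

noncomputable section

open PowerSeries
open scoped ArithmeticFunction.sigma MatrixGroups

namespace FA.TotallyRealKummer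

open FA.Tau FA.SerreDenominators UpperHalfPlane

variable {p : ℕ} [Fact p.Prime]

/-- The series of `B E_{p-1}`, congruent to `B` modulo `p`. -/
theorem exists_unit_form (h5 : 5 ≤ p) : ∃ (B : ℤ) (E : ModularForm 𝒮ℒ ((p - 1 : ℕ) : ℤ))
    (Y : PowerSeries ℤ), ¬(p : ℤ) ∣ B ∧ coeff 0 Y = 0 ∧
      qExpansion 1 ⇑E = (C B + (p : PowerSeries ℤ) * Y).map (Int.castRingHom ℂ) := by
  obtain ⟨B, D, hBD, hD, hB⟩ := FA.HasseEis.exists_bernoulli (p := p) h5
  have hk3 : 3 ≤ p - 1 := by omega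
  have hkev : Even (p - 1) := (Fact.out : p.Prime).even_sub_one (by omega)
  obtain ⟨c, hc⟩ : ∃ c : ℤ, c = -2 * ((p - 1 : ℕ) : ℤ) * D := ⟨_, rfl⟩
  have hbern : (B : ℂ) = (p : ℂ) * (bernoulli (p - 1) : ℂ) * (D : ℂ) := by exact_mod_cast hBD.symm
  have hBne : ¬(p : ℤ) ∣ B := fun h => hD (by
    rw [← ZMod.intCast_zmod_eq_zero_iff_dvd, hB, neg_eq_zero] at h
    exact h)
  have hb0 : (bernoulli (p - 1) : ℂ) ≠ 0 := fun h => hBne (by
    rw [h, mul_zero, zero_mul, Int.cast_eq_zero] at hbern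
    exact hbern ▸ dvd_zero _)
  refine ⟨B, (B : ℂ) • ModularForm.E hk3, C c * sigmaInt (p - 2), hBne, by simp [sigmaInt], ?_⟩
  rw [FunLike.coe_smul, ((hasQ_form (ModularForm.E hk3)).smul (B : ℂ)).qExpansion_eq one_pos]
  refine PowerSeries.ext fun i => ?_
  rw [PowerSeries.coeff_smul, EisensteinSeries.E_qExpansion_coeff hk3 hkev, coeff_map,
    natCast_series, map_add, coeff_C_mul, coeff_C_mul, sigmaInt, coeff_mk, coeff_C,
    show p - 1 - 1 = p - 2 by omega, eq_intCast, smul_eq_mul, hc]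
  rcases eq_or_ne i 0 with rfl | hi
  · simp
  · rw [if_neg hi, if_neg hi, zero_add, hbern]
    push_cast
    field_simp

/-- The form with unit constant term congruent to it modulo `p ^ (a + 1)`. -/
theorem exists_padding_form (h5 : 5 ≤ p) (a t : ℕ) : ∃ (B : ℤ)
    (E : ModularForm 𝒮ℒ (((p - 1) * (p ^ a * t) : ℕ) : ℤ)) (W : PowerSeries ℤ),
      ¬(p : ℤ) ∣ B ∧ coeff 0 W = 0 ∧
      qExpansion 1 ⇑E = (C B + C ((p : ℤ) ^ (a + 1)) * W).map (Int.castRingHom ℂ) := by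
  obtain ⟨B, E, Y, hB, hY, hE⟩ := exists_unit_form (p := p) h5
  obtain ⟨z, hz⟩ := exists_pow_expansion ((Fact.out : p.Prime).odd_of_ne_two (by omega))
    (C B) Y a t
  refine ⟨B ^ (p ^ a * t), ModularForm.mcast (by push_cast; ring) (E.pow (p ^ a * t)),
    C (t : ℤ) * (C B ^ (p ^ a * t - 1) * Y) + C (p : ℤ) * z, fun h => hB
      ((Nat.prime_iff_prime_int.1 Fact.out).dvd_of_dvd_pow h), ?_, ?_⟩
  · have h0 : ((p : ℤ) ^ (a + 1)) ≠ 0 :=
      pow_ne_zero _ (Int.natCast_ne_zero.2 (Fact.out : p.Prime).ne_zero)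
    refine mul_left_cancel₀ h0 ?_
    rw [mul_zero, ← coeff_C_mul]
    have e : C ((p : ℤ) ^ (a + 1)) * (C (t : ℤ) * (C B ^ (p ^ a * t - 1) * Y) + C (p : ℤ) * z) =
        (C B + (p : PowerSeries ℤ) * Y) ^ (p ^ a * t) - C (B ^ (p ^ a * t)) := by
      rw [hz]
      simp only [natCast_series, map_pow]
      ring
    rw [e, map_sub, coeff_zero_C, coeff_zero_eq_constantCoeff, map_pow, map_add, map_mul,
      constantCoeff_C, ← coeff_zero_eq_constantCoeff_apply Y, hY, mul_zero, add_zero, sub_self]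
  · have hQ := hasQ_form E
    rw [hE] at hQ
    rw [ModularForm.coe_mcast, ModularForm.coe_pow, (hQ.pow one_pos _).qExpansion_eq one_pos,
      ← map_pow, hz]
    congr 1
    simp only [natCast_series, map_pow]
    ring

/-- **Serre's congruence for constant terms**, with the two denominators. -/
theorem constant_term_congr (h5 : 5 ≤ p) {a t w w' : ℕ} (hev : Even w) (hw : 4 ≤ w)
    (hww : w' = w + (p - 1) * (p ^ a * t)) (f : ModularForm 𝒮ℒ (w : ℤ))
    (g : ModularForm 𝒮ℒ (w' : ℤ)) {c c' : ℕ → ℤ}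
    (hf : ∀ m : ℕ, m ≠ 0 → (qExpansion 1 f).coeff m = (c m : ℂ))
    (hg : ∀ m : ℕ, m ≠ 0 → (qExpansion 1 g).coeff m = (c' m : ℂ))
    (hcong : ∀ m : ℕ, m ≠ 0 → (p : ℤ) ^ (a + 1) ∣ c' m - c m) :
    ∃ u z : ℤ, ¬(p : ℤ) ∣ u ∧ (u : ℂ) * (staudtDen w : ℂ) * (staudtDen w' : ℂ) *
      ((qExpansion 1 g).coeff 0 - (qExpansion 1 f).coeff 0) = (p : ℂ) ^ (a + 1) * z := by
  subst hww
  obtain ⟨B, E, W, hB, hW, hE⟩ := exists_padding_form (p := p) h5 a t
  have hev' : Even (w + (p - 1) * (p ^ a * t)) :=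
    hev.add (((Fact.out : p.Prime).even_sub_one (by omega)).mul_right _)
  obtain ⟨z₀, hz₀⟩ := den_mul_mem hev hw f fun m hm => ⟨c m, hf m hm⟩
  obtain ⟨D, hD⟩ : ∃ D, D = staudtDen w := ⟨_, rfl⟩
  obtain ⟨q, hq⟩ : ∃ q : ℂ, q = (p : ℂ) ^ (a + 1) := ⟨_, rfl⟩
  have hq0 : q ≠ 0 := hq ▸ pow_ne_zero _ (Nat.cast_ne_zero.2 (Fact.out : p.Prime).ne_zero)
  obtain ⟨S, hS⟩ : ∃ S : PowerSeries ℤ, S = mk fun m => if m = 0 then z₀ else (D : ℤ) * c m :=
    ⟨_, rfl⟩
  have hSq : qExpansion 1 ⇑((D : ℂ) • f) = S.map (Int.castRingHom ℂ) := by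
    rw [FunLike.coe_smul, ((hasQ_form f).smul (D : ℂ)).qExpansion_eq one_pos]
    refine PowerSeries.ext fun m => ?_
    rw [PowerSeries.coeff_smul, coeff_map, hS, coeff_mk, smul_eq_mul, eq_intCast]
    split_ifs with hm
    · rw [hm, hD, hz₀]
    · rw [hf m hm, Int.cast_mul, Int.cast_natCast]
  obtain ⟨h, hh⟩ : ∃ h : ModularForm 𝒮ℒ ((w + (p - 1) * (p ^ a * t) : ℕ) : ℤ),
      h = q⁻¹ • (((B : ℂ) * (D : ℂ)) • g -
        ModularForm.mcast (by push_cast; ring) (((D : ℂ) • f).mul E)) := ⟨_, rfl⟩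
  have hcoef : ∀ m, (qExpansion 1 h).coeff m = q⁻¹ * ((B : ℂ) * (D : ℂ) *
      (qExpansion 1 g).coeff m -
        ((coeff m (S * (C B + C ((p : ℤ) ^ (a + 1)) * W)) : ℤ) : ℂ)) := fun m => by
    have hQ := (((hasQ_form g).smul ((B : ℂ) * (D : ℂ))).sub
      ((hSq ▸ hasQ_form ((D : ℂ) • f)).mul one_pos (hE ▸ hasQ_form E))).smul q⁻¹
    rw [hh, FunLike.coe_smul, FunLike.coe_sub, ModularForm.coe_mcast, ModularForm.coe_mul,
      FunLike.coe_smul ((B : ℂ) * (D : ℂ)) g, hQ.qExpansion_eq one_pos, PowerSeries.coeff_smul,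
      map_sub, PowerSeries.coeff_smul, ← map_mul, coeff_map, eq_intCast, smul_eq_mul, smul_eq_mul]
  have hSE : ∀ m, coeff m (S * (C B + C ((p : ℤ) ^ (a + 1)) * W)) =
      B * coeff m S + (p : ℤ) ^ (a + 1) * coeff m (S * W) := fun m => by
    rw [mul_add, map_add, mul_comm S (C B), coeff_C_mul, ← mul_assoc, mul_comm S (C _), mul_assoc,
      coeff_C_mul]
  choose b hb using hcong
  obtain ⟨z, hz⟩ := den_mul_mem hev' (by omega) h fun m hm =>
    ⟨B * D * b m hm - coeff m (S * W), by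
      rw [hcoef, hSE, hg m hm, hS, coeff_mk, if_neg hm, ← hS, inv_mul_eq_iff_eq_mul₀ hq0, hq]
      have := congrArg (Int.cast : ℤ → ℂ) (hb m hm)
      push_cast at this ⊢
      linear_combination (B : ℂ) * (D : ℂ) * this⟩
  refine ⟨B, z, hB, ?_⟩
  rw [hcoef, hSE, show coeff 0 (S * W) = 0 by
    rw [coeff_zero_eq_constantCoeff, map_mul, ← coeff_zero_eq_constantCoeff_apply W, hW, mul_zero],
    hS, coeff_mk, if_pos rfl] at hz
  push_cast at hz
  rw [← hz₀, ← hD] at hz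
  rw [← hq, ← hz, ← hD]
  field_simp
  ring

theorem not_dvd_staudtDen (h2 : p ≠ 2) {w : ℕ} (h : ¬(p - 1) ∣ w) : ¬p ∣ staudtDen w := by
  intro h1
  have hp : p.Prime := Fact.out
  rw [staudtDen, hp.prime.dvd_mul] at h1
  rcases h1 with h1 | h1
  · exact h2 ((Nat.prime_dvd_prime_iff_eq hp Nat.prime_two).1 (hp.dvd_of_dvd_pow h1))
  · obtain ⟨q, hq, hpq⟩ := (hp.prime.dvd_finsetProd_iff _).1 h1
    obtain ⟨-, hqp, -, hqw⟩ := Finset.mem_filter.1 hq
    rw [← (Nat.prime_dvd_prime_iff_eq hp hqp).1 (hp.dvd_of_dvd_pow hpq)] at hqw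
    exact h hqw

end FA.TotallyRealKummer

end
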