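import Fermat.Agent.TotallyRealKummer.ConstantTerm
import Fermat.Agent.SerreDenominators.SiegelForm

/-!
# Kummer's congruences for totally real fields

The coefficients `S_m` are congruent modulo `p ^ (a + 1)` for exponents congruent modulo
`(p - 1) p ^ a` and at least `a + 1`.
-/

set_option autoImplicit false
set_option linter.unusedSectionVars false
set_option linter.style.haveILetI false

noncomputable section

open NumberField Module
open UpperHalfPlane (qExpansion)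
open scoped Classical MatrixGroups

namespace FA.TotallyRealKummer

open FA.SiegelConstant FA.SerreDenominators

variable {p : ℕ} [Fact p.Prime]

theorem natPow_congr {a j t : ℕ} (hj : a + 1 ≤ j) (x : ℕ) :
    ((x : ZMod (p ^ (a + 1))) ^ (j + (p - 1) * (p ^ a * t))) =
      (x : ZMod (p ^ (a + 1))) ^ j := by
  have hp : p.Prime := Fact.out
  by_cases h : p ∣ x
  · have h0 : (x : ZMod (p ^ (a + 1))) ^ (a + 1) = 0 := by
      rw [← Nat.cast_pow, ZMod.natCast_eq_zero_iff]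
      exact pow_dvd_pow_of_dvd h _
    rw [pow_eq_zero_of_le hj h0, pow_eq_zero_of_le (hj.trans (Nat.le_add_right _ _)) h0]
  · have hc : x.Coprime (p ^ (a + 1)) :=
      ((hp.coprime_iff_not_dvd.2 h).symm).pow_right _
    obtain ⟨v, hv⟩ : ∃ v : (ZMod (p ^ (a + 1)))ˣ, (v : ZMod (p ^ (a + 1))) = (x : ZMod _) :=
      ⟨ZMod.unitOfCoprime x hc, rfl⟩
    have he : v ^ (p ^ a * (p - 1)) = 1 := by
      have h := ZMod.pow_totient v
      rwa [Nat.totient_prime_pow_succ hp a] at h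
    rw [← hv, ← Units.val_pow_eq_pow_val, ← Units.val_pow_eq_pow_val,
      show (p - 1) * (p ^ a * t) = p ^ a * (p - 1) * t by ring, pow_add v, pow_mul v, he, one_pow,
      mul_one]

variable {K : Type*} [Field K] [NumberField K] [IsTotallyReal K]

theorem pointSum_congr {m : ℕ} [Finite (TracePt K m)] {a j t : ℕ} (hj : a + 1 ≤ j) :
    (p : ℤ) ^ (a + 1) ∣
      (pointSum K (j + (p - 1) * (p ^ a * t)) m : ℤ) - (pointSum K j m : ℤ) := by
  haveI := Fintype.ofFinite (TracePt K m)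
  haveI : ∀ ξ : TracePt K m, Finite {b : Ideal (𝓞 K) // b ∣ pointIdeal ξ} := fun ξ =>
    finite_dvd (pointIdeal_ne_zero ξ)
  haveI := fun ξ : TracePt K m => Fintype.ofFinite {b : Ideal (𝓞 K) // b ∣ pointIdeal ξ}
  have h : ((pointSum K (j + (p - 1) * (p ^ a * t)) m : ℕ) : ZMod (p ^ (a + 1))) =
      ((pointSum K j m : ℕ) : ZMod (p ^ (a + 1))) := by
    simp only [pointSum, idealSigma, tsum_fintype, Nat.cast_sum, Nat.cast_pow, natPow_congr hj]
  rw [← Nat.cast_pow, ← ZMod.intCast_zmod_eq_zero_iff_dvd]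
  push_cast
  rw [h, sub_self]

/-- The congruence with both denominators, `k ≤ k'`. -/
theorem siegelTotal_congr (h5 : 5 ≤ p) {a t k : ℕ} (hk : Even k) (hk2 : 2 ≤ k) (hka : a + 2 ≤ k)
    (hw : 4 ≤ k * finrank ℚ K) :
    ∃ u z : ℤ, ¬(p : ℤ) ∣ u ∧ (u : ℚ) * (staudtDen (k * finrank ℚ K) : ℚ) *
      (staudtDen ((k + (p - 1) * (p ^ a * t)) * finrank ℚ K) : ℚ) *
        (siegelTotal K (k + (p - 1) * (p ^ a * t)) - siegelTotal K k) =
      (p : ℚ) ^ (a + 1) * z := by
  have hk' : Even (k + (p - 1) * (p ^ a * t)) :=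
    hk.add (((Fact.out : p.Prime).even_sub_one (by omega)).mul_right _)
  have hw' : 4 ≤ (k + (p - 1) * (p ^ a * t)) * finrank ℚ K :=
    hw.trans (Nat.mul_le_mul_right _ (Nat.le_add_right _ _))
  obtain ⟨f, hf0, hf⟩ := exists_siegel_form (K := K) hk hk2 hw
  obtain ⟨g, hg0, hg⟩ := exists_siegel_form (K := K) hk' (by omega) hw'
  obtain ⟨u, z, hu, h⟩ := constant_term_congr (p := p) h5 (t := t * finrank ℚ K) (a := a)
    (hk.mul_right _) hw (show (k + (p - 1) * (p ^ a * t)) * finrank ℚ K = _ by ring) f g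
    (c := fun m => (pointSum K (k - 1) m : ℤ))
    (c' := fun m => (pointSum K (k + (p - 1) * (p ^ a * t) - 1) m : ℤ))
    (fun m hm => by rw [hf m hm, Int.cast_natCast]) (fun m hm => by rw [hg m hm, Int.cast_natCast])
    (fun m _ => by
      haveI : Finite (TracePt K m) := finite_tracePt hk hk2 hw m
      rw [show k + (p - 1) * (p ^ a * t) - 1 = k - 1 + (p - 1) * (p ^ a * t) by omega]
      exact pointSum_congr (by omega))
  refine ⟨u, z, hu, Rat.cast_injective (α := ℂ) ?_⟩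
  rw [hf0, hg0] at h
  push_cast
  exact h

/-- A rational with no `p` in its denominator, times `p ^ e`. -/
def PDvd (p e : ℕ) (x : ℚ) : Prop := ∃ r : ℚ, ¬p ∣ r.den ∧ x = (p : ℚ) ^ e * r

theorem PDvd.neg {e : ℕ} {x : ℚ} (h : PDvd p e x) : PDvd p e (-x) := by
  obtain ⟨r, hr, rfl⟩ := h
  exact ⟨-r, by rwa [Rat.den_neg_eq_den], by ring⟩

theorem pDvd_of_mul {e : ℕ} {x : ℚ} {u z : ℤ} (hu : ¬(p : ℤ) ∣ u)
    (h : (u : ℚ) * x = (p : ℚ) ^ e * z) : PDvd p e x := by
  have hu0 : (u : ℚ) ≠ 0 := Int.cast_ne_zero.2 fun h0 => hu (h0 ▸ dvd_zero _)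
  refine ⟨(z : ℚ) / (u : ℚ), fun hd => hu ((Int.natCast_dvd_natCast.2 hd).trans (by
    rw [← Rat.divInt_eq_div]; exact Rat.den_dvd _ _)), ?_⟩
  rw [← mul_div_assoc, ← h, mul_div_cancel_left₀ _ hu0]

theorem siegelTotal_integral (h5 : 5 ≤ p) {k : ℕ} (hk : Even k) (hk2 : 2 ≤ k)
    (hw : 4 ≤ k * finrank ℚ K) (hdvd : ¬(p - 1) ∣ k * finrank ℚ K) :
    ¬p ∣ (siegelTotal K k).den := by
  obtain ⟨f, hf0, hf⟩ := exists_siegel_form (K := K) hk hk2 hw
  obtain ⟨r, hr, hd⟩ := den_dvd (hk.mul_right _) hw f fun m hm =>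
    ⟨(pointSum K (k - 1) m : ℤ), by rw [hf m hm, Int.cast_natCast]⟩
  rw [hf0, Rat.cast_inj] at hr
  subst hr
  exact fun h => not_dvd_staudtDen (by omega) hdvd (h.trans hd)

/-- **Kummer's congruence.** -/
theorem kummer (h5 : 5 ≤ p) {a k k' : ℕ} (hk : Even k) (hk2 : 2 ≤ k) (hka : a + 2 ≤ k)
    (hw : 4 ≤ k * finrank ℚ K) (hk2' : 2 ≤ k') (hka' : a + 2 ≤ k')
    (hw' : 4 ≤ k' * finrank ℚ K) (hdvd : ¬(p - 1) ∣ k * finrank ℚ K)
    (hmod : k ≡ k' [MOD (p - 1) * p ^ a]) :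
    PDvd p (a + 1) (siegelTotal K k' - siegelTotal K k) := by
  have main : ∀ {i t : ℕ}, Even i → 2 ≤ i → a + 2 ≤ i → 4 ≤ i * finrank ℚ K →
      ¬(p - 1) ∣ i * finrank ℚ K →
      PDvd p (a + 1) (siegelTotal K (i + (p - 1) * (p ^ a * t)) - siegelTotal K i) := by
    intro i t hi hi2 hia hwi hdi
    obtain ⟨u, z, hu, h⟩ := siegelTotal_congr (K := K) (p := p) h5 (t := t) hi hi2 hia hwi
    have hdi' : ¬(p - 1) ∣ (i + (p - 1) * (p ^ a * t)) * finrank ℚ K := fun hh => hdi (by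
      rw [add_mul, mul_assoc] at hh
      exact (Nat.dvd_add_left (dvd_mul_right _ _)).1 hh)
    refine pDvd_of_mul (u := u * (staudtDen (i * finrank ℚ K) : ℤ) *
      (staudtDen ((i + (p - 1) * (p ^ a * t)) * finrank ℚ K) : ℤ)) (z := z) ?_ ?_
    · intro hh
      have hP := Nat.prime_iff_prime_int.1 (Fact.out : p.Prime)
      rcases hP.dvd_or_dvd hh with hh | hh
      · rcases hP.dvd_or_dvd hh with hh | hh
        · exact hu hh
        · exact not_dvd_staudtDen (by omega) hdi (Int.natCast_dvd_natCast.1 hh)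
      · exact not_dvd_staudtDen (by omega) hdi' (Int.natCast_dvd_natCast.1 hh)
    · push_cast
      exact h
  rcases le_total k k' with hle | hle
  · obtain ⟨t, ht⟩ := (Nat.modEq_iff_dvd' hle).1 hmod
    obtain rfl : k' = k + (p - 1) * (p ^ a * t) := by rw [← mul_assoc, ← ht]; omega
    exact main hk hk2 hka hw hdvd
  · obtain ⟨t, ht⟩ := (Nat.modEq_iff_dvd' hle).1 hmod.symm
    obtain rfl : k = k' + (p - 1) * (p ^ a * t) := by rw [← mul_assoc, ← ht]; omega
    have hev' : Even k' := (Nat.even_add.1 hk).2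
      (((Fact.out : p.Prime).even_sub_one (by omega)).mul_right _)
    have hdvd' : ¬(p - 1) ∣ k' * finrank ℚ K := fun hh => hdvd (by
      rw [add_mul, mul_assoc]
      exact dvd_add hh (dvd_mul_right _ _))
    simpa using (main (t := t) hev' hk2' hka' hw' hdvd').neg

end FA.TotallyRealKummer

end
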